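/-
S44 / DEPTH (architect helper219), block TR (helper288): translation of the conclusions
`RedNode` / `RedSm` of the abstract main theorem into orders at the places of `Fk A (M' * 4)`.
-/
import Fermat.Agent.S44.Depth.Inst.MDDefs
import Fermat.Agent.S44.X.Red.API

set_option autoImplicit false

noncomputable section

namespace Fermat.Agent.S44.Depth.Inst

open ModularCurve AlgebraicCurve Fermat.Agent.S24 Fermat.Agent.GAL Fermat.Agent.S44.X
  Fermat.Agent.Lib.InertiaField Fermat.Agent.S18.Descent Fermat.Agent.BAD.Bridge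
  Fermat.Agent.S28.Export Fermat.Agent.S36.BP Fermat.Agent.BAD.LevelQ.Mod
open Fermat.Agent.S18 (IsUnif)

/-! ## Auxiliary lemmas -/
section TRaux

/-- nonzero constants have order zero. -/
private theorem tr_ord_const {K F : Type*} [Field K] [Field F] [Algebra K F] (w : Place K F)
    {a : K} (ha : a ≠ 0) : w.ord (algebraMap K F a) = 0 := by
  have h1 : (algebraMap K w.toValuationSubring a) * (algebraMap K w.toValuationSubring a⁻¹) = 1 := by
    rw [← map_mul, mul_inv_cancel₀ ha, map_one]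
  have h2 := w.ord_coe_unit (Units.mkOfMulEqOne _ _ h1)
  simpa using h2

variable {A : ValuationSubring S44.Qb}

private theorem tr_red_zpow {f : LaurentSeries S44.Qb} {g : LaurentSeries (kA A)}
    (h : Red A f g) (hg : g ≠ 0) (n : ℤ) : Red A (f ^ n) (g ^ n) := by
  obtain ⟨m, rfl | rfl⟩ := n.eq_nat_or_neg
  · rw [zpow_natCast, zpow_natCast]
    exact h.pow m
  · rw [zpow_neg, zpow_neg, zpow_natCast, zpow_natCast]
    exact (h.pow m).inv (pow_ne_zero _ hg)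

section Gauss

variable {K : Type*} [Field K] [Algebra ℚ K] [Algebra K S44.Qb] {N : ℕ}
  {V : ValuationSubring (FK K N)}

private theorem tr_gauss_unit (hV : IsGauss A V) {f : FK K N} (hf : V.valuation f = 1) :
    ∃ g, g ≠ 0 ∧ Red A ((bcK K N f : FN N) : LaurentSeries S44.Qb) g := by
  have hf0 : f ≠ 0 := by
    rintro rfl
    simp at hf
  have h1 : f ∈ V := (V.valuation_le_one_iff f).1 hf.le
  have h2 : f⁻¹ ∈ V := (V.valuation_le_one_iff _).1 (by rw [map_inv₀, hf, inv_one])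
  obtain ⟨g, hg⟩ := (hV f).1 h1
  obtain ⟨g', hg'⟩ := (hV f⁻¹).1 h2
  refine ⟨g, ?_, hg⟩
  rintro rfl
  have h3 := hg.mul hg'
  have e : ((bcK K N f : FN N) : LaurentSeries S44.Qb) *
      ((bcK K N f⁻¹ : FN N) : LaurentSeries S44.Qb) = 1 := by
    rw [← MulMemClass.coe_mul, ← map_mul, mul_inv_cancel₀ hf0, map_one]
    rfl
  rw [e, zero_mul] at h3
  exact one_ne_zero (red_one.unique h3)

private theorem tr_gauss_small (hV : IsGauss A V) {z : FK K N} (hz : V.valuation z < 1) :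
    Red A ((bcK K N z : FN N) : LaurentSeries S44.Qb) 0 := by
  have h1 : z ∈ V := (V.valuation_le_one_iff z).1 hz.le
  obtain ⟨g, hg⟩ := (hV z).1 h1
  by_cases hg0 : g = 0
  · rwa [hg0] at hg
  · exfalso
    have h2 := hg.inv hg0
    have h3 : z⁻¹ ∈ V := (hV z⁻¹).2 ⟨g⁻¹, by rw [map_inv₀]; exact h2⟩
    have h4 := (V.valuation_le_one_iff _).2 h3
    have hz0 : z ≠ 0 := by
      rintro rfl
      apply hg.ne_zero hg0
      rw [map_zero]
      rfl
    rw [map_inv₀, inv_le_one₀ (zero_lt_iff.2 ((map_ne_zero _).2 hz0))] at h4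
    exact absurd hz (not_lt.2 h4)

end Gauss

section InFk

variable {p : ℕ} [NeZero p] {M : ℕ} [NeZero M]

omit [NeZero M] in
private theorem tr_coe_const (a : kA A) :
    ((algebraMap (kA A) (Fk A M) a : Fk A M) : LaurentSeries (kA A)) = HahnSeries.C a := by
  show algebraMap (kA A) (LaurentSeries (kA A)) a = HahnSeries.C a
  rw [algebraMap_laurentSeries_eq_single]
  rfl

/-- a nonzero Gauss reduction of a function of level `M p` lies in `Fk A M`. -/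
private theorem tr_mem_Fk (hR : NodeRed) (hp : p.Prime) (hpM : ¬ p ∣ M) (hA : A.LiesOverPrime p)
    {y : FN (M * p)} {g : LaurentSeries (kA A)} (hg : g ≠ 0)
    (h : Red A (y : LaurentSeries S44.Qb) g) : ∃ gb : Fk A M, (gb : LaurentSeries (kA A)) = g := by
  have hy0 : y ≠ 0 := by
    rintro rfl
    exact h.ne_zero hg rfl
  obtain ⟨yb, hyb⟩ := hR p M hp hpM A hA y hy0
  have h1 : IsRed A y g := isRed_of_red hp hA hg one_ne_zero (by rwa [one_smul])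
  obtain ⟨a, _, e⟩ := hyb.unique h1
  refine ⟨algebraMap (kA A) (Fk A M) a * yb, ?_⟩
  rw [e, MulMemClass.coe_mul, tr_coe_const]

variable {K : Type*} [Field K] [Algebra ℚ K] [Algebra K S44.Qb]
  {V : ValuationSubring (FK K (M * p))}

private theorem tr_unit_Fk (hR : NodeRed) (hp : p.Prime) (hpM : ¬ p ∣ M) (hA : A.LiesOverPrime p)
    (hV : IsGauss A V) {f : FK K (M * p)} (hf : V.valuation f = 1) :
    ∃ fb : Fk A M, fb ≠ 0 ∧
      Red A ((bcK K (M * p) f : FN (M * p)) : LaurentSeries S44.Qb)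
        (fb : LaurentSeries (kA A)) := by
  obtain ⟨g, hg0, hg⟩ := tr_gauss_unit hV hf
  obtain ⟨fb, rfl⟩ := tr_mem_Fk hR hp hpM hA hg0 hg
  refine ⟨fb, ?_, hg⟩
  rintro rfl
  exact hg0 rfl

/-- STEP 1: the reduction of a unit of `R₀` is a unit at `w`. -/
private theorem tr_runit (hR : NodeRed) (hp : p.Prime) (hpM : ¬ p ∣ M) (hA : A.LiesOverPrime p)
    {Vi₀ : ValuationSubring (FK (K0 A) (M * p))} (hVi₀ : IsGauss A Vi₀)
    {w : Place (kA A) (Fk A M)} {R₀ : Subring (FK (K0 A) (M * p))}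
    (hw : Centred A M p w R₀) (hle : ∀ r ∈ R₀, r ∈ Vi₀) {r₀ : FK (K0 A) (M * p)}
    (h : RUnit R₀ r₀) :
    ∃ rb : Fk A M, rb ≠ 0 ∧
      Red A ((bcK (K0 A) (M * p) r₀ : FN (M * p)) : LaurentSeries S44.Qb)
        (rb : LaurentSeries (kA A)) ∧ w.ord rb = 0 := by
  obtain ⟨h0, h1, h2⟩ := h
  have hv1 := (Vi₀.valuation_le_one_iff _).2 (hle _ h1)
  have hv2 := (Vi₀.valuation_le_one_iff _).2 (hle _ h2)
  rw [map_inv₀, inv_le_one₀ (zero_lt_iff.2 ((map_ne_zero _).2 h0))] at hv2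
  obtain ⟨rb, hrb0, hrb⟩ := tr_unit_Fk hR hp hpM hA hVi₀ (le_antisymm hv1 hv2)
  refine ⟨rb, hrb0, hrb, ?_⟩
  have h3 := hw r₀ h1 rb hrb
  have h4 : 0 ≤ w.ord rb⁻¹ := by
    apply hw r₀⁻¹ h2 rb⁻¹
    rw [map_inv₀]
    exact hrb.inv (fun h => hrb0 (Subtype.ext h))
  rw [w.ord_inv] at h4
  omega

end InFk

section Core

private theorem tr_bcK_up (L : IntermediateField (K0 A) S44.Qb) (N : ℕ) (z : FK (K0 A) N) :
    bcK L N (upF (K0 A) L N z) = bcK (K0 A) N z := by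
  apply Subtype.ext
  show coeffMap (algebraMap L S44.Qb) (coeffMap (algebraMap (K0 A) L) (z : LaurentSeries (K0 A))) =
    coeffMap (algebraMap (K0 A) S44.Qb) (z : LaurentSeries (K0 A))
  rw [coeffMap_coeffMap]
  rfl

private theorem tr_bcK_const (L : IntermediateField (K0 A) S44.Qb) (N : ℕ) (κ : L) :
    bcK L N (algebraMap L (FK L N) κ) = algebraMap S44.Qb (FN N) (κ : S44.Qb) :=
  baseChangeMap_algebraMap _ κ

private theorem tr_coe_constQ (N : ℕ) (c : S44.Qb) (y : FN N) :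
    ((algebraMap S44.Qb (FN N) c * y : FN N) : LaurentSeries S44.Qb) =
      c • (y : LaurentSeries S44.Qb) := by
  rw [smul_eq_C_mul]
  show algebraMap S44.Qb (LaurentSeries S44.Qb) c * (y : LaurentSeries S44.Qb) = _
  rw [algebraMap_laurentSeries_eq_single]
  rfl

variable {p : ℕ} [NeZero p] {M' : ℕ} [NeZero M']

/-- two reductions of the same function have the same order. -/
private theorem tr_ord_eq {M N : ℕ} {y : FN N} {a b : Fk A M}
    (ha : IsRed A y (a : LaurentSeries (kA A))) (hb : IsRed A y (b : LaurentSeries (kA A)))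
    (w : Place (kA A) (Fk A M)) : w.ord a = w.ord b := by
  obtain ⟨c, hc, e⟩ := ha.unique hb
  have e' : b = algebraMap (kA A) (Fk A M) c * a := by
    apply Subtype.ext
    rw [e, MulMemClass.coe_mul, tr_coe_const]
  have ha0 : a ≠ 0 := by
    rintro rfl
    exact ha.ne_zero rfl
  rw [e', w.ord_mul ((map_ne_zero _).2 hc) ha0, tr_ord_const w hc, zero_add]

private theorem tr_core (L : IntermediateField (K0 A) S44.Qb)
    (hR : NodeRed) (hp : p.Prime) (hpM4 : ¬ p ∣ M' * 4) (hA : A.LiesOverPrime p)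
    {Vi₀ : ValuationSubring (FK (K0 A) (M' * 4 * p))} {Vi : ValuationSubring (FK L (M' * 4 * p))}
    (hVi₀ : IsGauss A Vi₀) (hVi : IsGauss A Vi) {x₀ : FK (K0 A) (M' * 4 * p)}
    {Xb : Fk A (M' * 4)} (hXb0 : Xb ≠ 0)
    (hXb : Red A ((bcK (K0 A) (M' * 4 * p) x₀ : FN (M' * 4 * p)) : LaurentSeries S44.Qb)
      (Xb : LaurentSeries (kA A)))
    {U : FN (M' * p)} {ubar : Fk A M'} (hU : IsRed A U (ubar : LaurentSeries (kA A)))
    {u : FK L (M' * 4 * p)} {g : FN (M' * 4 * p)} (hg : g ≠ 0)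
    (hu : bcK L (M' * 4 * p) u = levelIncl (⟨4, by ring⟩ : M' * p ∣ M' * 4 * p) U * g ^ p)
    {w : Place (kA A) (Fk A (M' * 4))} {R₀ : Subring (FK (K0 A) (M' * 4 * p))}
    (hw : Centred A (M' * 4) p w R₀) (hle : ∀ r ∈ R₀, r ∈ Vi₀) {b : ℤ}
    (h : letI := algFK (K0 A) L (M' * 4 * p); RedNode L Vi₀ Vi x₀ R₀ p u b) :
    (p : ℤ) ∣ w.ord (inclFk A M' 4 ubar) - b * w.ord Xb := by
  let _ := algFK (K0 A) L (M' * 4 * p)
  obtain ⟨κ, G₀, r₀, hκ, hG₀, hr₀, hval⟩ := h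
  obtain ⟨Gb, hGb0, hGb⟩ := tr_unit_Fk hR hp hpM4 hA hVi₀ hG₀
  obtain ⟨rb, hrb0, hrb, hrbw⟩ := tr_runit hR hp hpM4 hA hVi₀ hw hle hr₀
  have hXb0' : (Xb : LaurentSeries (kA A)) ≠ 0 := fun h => hXb0 (Subtype.ext h)
  -- the reduction of `z₀`
  have hz : Red A ((bcK (K0 A) (M' * 4 * p) (x₀ ^ b * G₀ ^ p * r₀) : FN (M' * 4 * p)) :
      LaurentSeries S44.Qb) ((Xb ^ b * Gb ^ p * rb : Fk A (M' * 4)) : LaurentSeries (kA A)) := by
    rw [map_mul, map_mul, map_zpow₀, map_pow]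
    exact ((tr_red_zpow hXb hXb0' b).mul (hGb.pow p)).mul hrb
  have hZ0 : (Xb ^ b * Gb ^ p * rb : Fk A (M' * 4)) ≠ 0 :=
    mul_ne_zero (mul_ne_zero (zpow_ne_zero _ hXb0) (pow_ne_zero _ hGb0)) hrb0
  have hsm := tr_gauss_small hVi hval
  have e1 : bcK L (M' * 4 * p) (algebraMap (FK (K0 A) (M' * 4 * p)) (FK L (M' * 4 * p))
      (x₀ ^ b * G₀ ^ p * r₀)) = bcK (K0 A) (M' * 4 * p) (x₀ ^ b * G₀ ^ p * r₀) :=
    tr_bcK_up L _ _
  have hκ' : (κ : S44.Qb) ≠ 0 := fun h => hκ (Subtype.ext h)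
  have e2 : bcK L (M' * 4 * p) (u / algebraMap L (FK L (M' * 4 * p)) κ) =
      algebraMap S44.Qb (FN (M' * 4 * p)) (κ : S44.Qb)⁻¹ * bcK L (M' * 4 * p) u := by
    rw [map_div₀, tr_bcK_const, map_inv₀, div_eq_inv_mul]
  rw [map_sub, e1, e2] at hsm
  have h5 := hsm.add hz
  rw [zero_add, ← AddMemClass.coe_add, sub_add_cancel, tr_coe_constQ] at h5
  have h6 : IsRed A (bcK L (M' * 4 * p) u)
      ((Xb ^ b * Gb ^ p * rb : Fk A (M' * 4)) : LaurentSeries (kA A)) :=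
    isRed_of_red hp hA (fun h => hZ0 (Subtype.ext h)) (inv_ne_zero hκ') h5
  -- the other reduction
  obtain ⟨gb, hgb⟩ := hR p (M' * 4) hp hpM4 A hA g hg
  have hgb0 : gb ≠ 0 := by
    rintro rfl
    exact hgb.ne_zero rfl
  have hub0 : ubar ≠ 0 := by
    rintro rfl
    exact hU.ne_zero rfl
  have h7 : IsRed A (levelIncl (⟨4, by ring⟩ : M' * p ∣ M' * 4 * p) U)
      ((inclFk A M' 4 ubar : Fk A (M' * 4)) : LaurentSeries (kA A)) := by
    obtain ⟨c, hc, hc'⟩ := hU.exists_red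
    rw [coe_inclFk]
    exact isRed_of_red hp hA hU.ne_zero hc (by rw [coe_levelIncl]; exact hc')
  have h8 : IsRed A (bcK L (M' * 4 * p) u)
      ((inclFk A M' 4 ubar * gb ^ p : Fk A (M' * 4)) : LaurentSeries (kA A)) := by
    rw [hu]
    exact h7.mul (hgb.pow p)
  have h9 := tr_ord_eq h6 h8 w
  have hi0 : inclFk A M' 4 ubar ≠ 0 := (map_ne_zero _).2 hub0
  rw [w.ord_mul (mul_ne_zero (zpow_ne_zero _ hXb0) (pow_ne_zero _ hGb0)) hrb0,
    w.ord_mul (zpow_ne_zero _ hXb0) (pow_ne_zero _ hGb0), w.ord_zpow, hrbw,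
    w.ord_mul hi0 (pow_ne_zero _ hgb0), ← zpow_natCast, ← zpow_natCast, w.ord_zpow,
    w.ord_zpow] at h9
  exact ⟨w.ord Gb - w.ord gb, by linear_combination -h9⟩

end Core

end TRaux

/-! ## Block TR -/
section TR

variable {A : ValuationSubring S44.Qb} {p : ℕ} [NeZero p] {M' : ℕ} [NeZero M']
  (L : IntermediateField (K0 A) S44.Qb)

omit [NeZero p] [NeZero M'] in
private theorem tr_not_dvd (hpM : ¬ p ∣ M') (hc : Nat.Coprime p 4) : ¬ p ∣ M' * 4 :=
  fun h => hpM (hc.dvd_of_dvd_mul_right h)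

/-- the order of a reduction of `x₀` is the order of `x̄`. -/
private theorem tr_ord_x (hp : p.Prime) (hc : Nat.Coprime p 4) (hA : A.LiesOverPrime p)
    {x₀ : FK (K0 A) (M' * 4 * p)} {c : S44.Qb} (hc0 : c ≠ 0)
    (hx : bcK (K0 A) (M' * 4 * p) x₀ = algebraMap S44.Qb (FN (M' * 4 * p)) c * xU p M' hc)
    {xbar : Fk A (M' * 4)} (hxb : IsRed A (xU p M' hc) (xbar : LaurentSeries (kA A)))
    {Xb : Fk A (M' * 4)} (hXb0 : Xb ≠ 0)
    (hXb : Red A ((bcK (K0 A) (M' * 4 * p) x₀ : FN (M' * 4 * p)) : LaurentSeries S44.Qb)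
      (Xb : LaurentSeries (kA A))) (w : Place (kA A) (Fk A (M' * 4))) :
    w.ord Xb = w.ord xbar := by
  have h1 : IsRed A (bcK (K0 A) (M' * 4 * p) x₀) (Xb : LaurentSeries (kA A)) :=
    isRed_of_red hp hA (fun h => hXb0 (Subtype.ext h)) one_ne_zero (by rwa [one_smul])
  have h2 : IsRed A (bcK (K0 A) (M' * 4 * p) x₀) (xbar : LaurentSeries (kA A)) := by
    have h3 := (isRed_algebraMap (A := A) (N := M' * 4 * p) hc0).mul hxb
    rwa [one_mul, ← hx] at h3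
  exact tr_ord_eq h1 h2 w

/-- TR-1: translation at a node. -/
theorem tr_node (hR : NodeRed) (hp : p.Prime) (hpM : ¬ p ∣ M') (hc : Nat.Coprime p 4)
    (hA : A.LiesOverPrime p)
    {Vi₀ : ValuationSubring (FK (K0 A) (M' * 4 * p))} {Vi : ValuationSubring (FK L (M' * 4 * p))}
    (hVi₀ : IsGauss A Vi₀) (hVi : IsGauss A Vi) {x₀ : FK (K0 A) (M' * 4 * p)}
    (hx₀ : Vi₀.valuation x₀ = 1) {c : S44.Qb} (hc0 : c ≠ 0)
    (hx : bcK (K0 A) (M' * 4 * p) x₀ = algebraMap S44.Qb (FN (M' * 4 * p)) c * xU p M' hc)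
    {U : FN (M' * p)} {ubar : Fk A M'} (hU : IsRed A U (ubar : LaurentSeries (kA A)))
    {xbar : Fk A (M' * 4)} (hxb : IsRed A (xU p M' hc) (xbar : LaurentSeries (kA A)))
    {u : FK L (M' * 4 * p)} {g : FN (M' * 4 * p)} (hg : g ≠ 0)
    (hu : bcK L (M' * 4 * p) u = levelIncl (⟨4, by ring⟩ : M' * p ∣ M' * 4 * p) U * g ^ p)
    {w : Place (kA A) (Fk A (M' * 4))} {R₀ : Subring (FK (K0 A) (M' * 4 * p))}
    (hw : Centred A (M' * 4) p w R₀) (hle : ∀ r ∈ R₀, r ∈ Vi₀) {b : ℤ}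
    (h : letI := algFK (K0 A) L (M' * 4 * p); RedNode L Vi₀ Vi x₀ R₀ p u b) :
    (p : ℤ) ∣ w.ord (inclFk A M' 4 ubar) - b * w.ord xbar := by
  have hpM4 := tr_not_dvd hpM hc
  obtain ⟨Xb, hXb0, hXb⟩ := tr_unit_Fk hR hp hpM4 hA hVi₀ hx₀
  rw [← tr_ord_x hp hc hA hc0 hx hxb hXb0 hXb w]
  exact tr_core L hR hp hpM4 hA hVi₀ hVi hXb0 hXb hU hg hu hw hle h

/-- TR-2: translation at a smooth point.  (`hc` is needed: `NodeRed` is used at level
`(M' * 4) * p`.) -/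
theorem tr_sm (hR : NodeRed) (hp : p.Prime) (hpM : ¬ p ∣ M') (hc : Nat.Coprime p 4)
    (hA : A.LiesOverPrime p)
    {Vi₀ : ValuationSubring (FK (K0 A) (M' * 4 * p))} {Vi : ValuationSubring (FK L (M' * 4 * p))}
    (hVi₀ : IsGauss A Vi₀) (hVi : IsGauss A Vi)
    {U : FN (M' * p)} {ubar : Fk A M'} (hU : IsRed A U (ubar : LaurentSeries (kA A)))
    {u : FK L (M' * 4 * p)} {g : FN (M' * 4 * p)} (hg : g ≠ 0)
    (hu : bcK L (M' * 4 * p) u = levelIncl (⟨4, by ring⟩ : M' * p ∣ M' * 4 * p) U * g ^ p)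
    {w : Place (kA A) (Fk A (M' * 4))} {R₀ : Subring (FK (K0 A) (M' * 4 * p))}
    (hw : Centred A (M' * 4) p w R₀) (hle : ∀ r ∈ R₀, r ∈ Vi₀)
    (h : letI := algFK (K0 A) L (M' * 4 * p); RedSm L Vi₀ Vi R₀ p u) :
    (p : ℤ) ∣ w.ord (inclFk A M' 4 ubar) := by
  have hpM4 := tr_not_dvd hpM hc
  have h1 : Red A ((bcK (K0 A) (M' * 4 * p) 1 : FN (M' * 4 * p)) : LaurentSeries S44.Qb)
      ((1 : Fk A (M' * 4)) : LaurentSeries (kA A)) := by
    rw [map_one]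
    exact red_one
  have h2 : letI := algFK (K0 A) L (M' * 4 * p); RedNode L Vi₀ Vi 1 R₀ p u 0 := by
    obtain ⟨κ, G₀, r₀, hκ, hG₀, hr₀, hval⟩ := h
    refine ⟨κ, G₀, r₀, hκ, hG₀, hr₀, ?_⟩
    rw [zpow_zero, one_mul]
    exact hval
  have h3 := tr_core L hR hp hpM4 hA hVi₀ hVi one_ne_zero h1 hU hg hu hw hle h2
  rwa [zero_mul, sub_zero] at h3

/-- TR-3: `x̄` is a unit at the points where `x₀` is a unit. -/
theorem tr_x (hR : NodeRed) (hp : p.Prime) (hpM : ¬ p ∣ M') (hc : Nat.Coprime p 4)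
    (hA : A.LiesOverPrime p)
    {Vi₀ : ValuationSubring (FK (K0 A) (M' * 4 * p))} (hVi₀ : IsGauss A Vi₀)
    {x₀ : FK (K0 A) (M' * 4 * p)} {c : S44.Qb} (hc0 : c ≠ 0)
    (hx : bcK (K0 A) (M' * 4 * p) x₀ = algebraMap S44.Qb (FN (M' * 4 * p)) c * xU p M' hc)
    {xbar : Fk A (M' * 4)} (hxb : IsRed A (xU p M' hc) (xbar : LaurentSeries (kA A)))
    {w : Place (kA A) (Fk A (M' * 4))} {R₀ : Subring (FK (K0 A) (M' * 4 * p))}
    (hw : Centred A (M' * 4) p w R₀) (hle : ∀ r ∈ R₀, r ∈ Vi₀) (h : RUnit R₀ x₀) :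
    w.ord xbar = 0 := by
  obtain ⟨Xb, hXb0, hXb, hXw⟩ := tr_runit hR hp (tr_not_dvd hpM hc) hA hVi₀ hw hle h
  rw [← tr_ord_x hp hc hA hc0 hx hxb hXb0 hXb w, hXw]

end TR

end Fermat.Agent.S44.Depth.Inst

end
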